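import Mathlib

/-!
# Row LT, tower T7, leaf T7.13k `DirichletC`: the Mathlib-only core (helper980), OFF-MAIN

Real analysis only, no number field.

* `geom_sum_le_980`   : `∑_{j < K} r ^ j ≤ 1 / (1 - r)` for `0 ≤ r < 1`.
* `dyadic_sum_le_980` : partial sums `∑_{n p ≤ X} a p ≤ C X` (all `X ≥ 1`) of a non-negative weight
  give `∑ a p (n p) ^ (-t) ≤ 2 C / (1 - 2 ^ (-(t - 1)))` for `t > 1` (dyadic blocks).
* `dirichlet_core_980`: for ONE finite set `T` with `2 ≤ N i`, `0 ≤ w i ≤ 4` on `T` and the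
  squarefree partial sum bound over the subsets of `T`:
  `∑_{i ∈ T} w i (N i) ^ (-s) ≤ log (1 / (s - 1)) + (log (4 C / log 2) + 16 C)`, `1 < s ≤ 2`
  (Euler product `∏ (1 + x_i) = ∑_{T' ⊆ T} ∏_{T'} x_i`, `log (1 + x) ≥ x - x ^ 2`,
  `∑ x_i ^ 2 ≤ 4 ∑ w_i N_i ^ (-2) ≤ 16 C` by the singletons).
-/

set_option autoImplicit false

namespace Fermat.Agent.LT.T7.H980

theorem geom_sum_le_980 (r : ℝ) (hr0 : 0 ≤ r) (hr1 : r < 1) (K : ℕ) :
    ∑ j ∈ Finset.range K, r ^ j ≤ 1 / (1 - r) := by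
  have h1 : 0 < 1 - r := by linarith
  rw [le_div_iff₀ h1, geom_sum_mul_neg]
  have : 0 ≤ r ^ K := pow_nonneg hr0 K
  linarith

theorem dyadic_sum_le_980 {α : Type*} (F : Finset α) (a n : α → ℝ) (C t : ℝ)
    (ha : ∀ p ∈ F, 0 ≤ a p) (hn : ∀ p ∈ F, 1 ≤ n p)
    (hC : ∀ X : ℝ, 1 ≤ X → ∑ p ∈ F.filter (fun p => n p ≤ X), a p ≤ C * X)
    (ht : 1 < t) :
    ∑ p ∈ F, a p * n p ^ (-t) ≤ 2 * C / (1 - (2 : ℝ) ^ (-(t - 1))) := by
  have hC0 : 0 ≤ C := by
    have h := hC 1 le_rfl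
    have h2 : 0 ≤ ∑ p ∈ F.filter (fun p => n p ≤ 1), a p :=
      Finset.sum_nonneg (fun p hp => ha p (Finset.mem_of_mem_filter p hp))
    linarith
  obtain ⟨r, hr⟩ : ∃ r : ℝ, r = (2 : ℝ) ^ (-(t - 1)) := ⟨_, rfl⟩
  rw [← hr]
  have hr0 : 0 < r := by rw [hr]; exact Real.rpow_pos_of_pos (by norm_num) _
  have hr1 : r < 1 := by
    rw [hr]; exact Real.rpow_lt_one_of_one_lt_of_neg (by norm_num) (by linarith)
  have hid : ∀ j : ℕ, (2 : ℝ) ^ (j + 1) * ((2 : ℝ) ^ j) ^ (-t) = 2 * r ^ j := by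
    intro j
    have e1 : ((2 : ℝ) ^ j) ^ (-t) = (2 : ℝ) ^ ((j : ℝ) * (-t)) := by
      rw [Real.rpow_mul (by norm_num : (0 : ℝ) ≤ 2), Real.rpow_natCast]
    have e2 : r ^ j = (2 : ℝ) ^ ((-(t - 1)) * (j : ℝ)) := by
      rw [hr, Real.rpow_mul (by norm_num : (0 : ℝ) ≤ 2), Real.rpow_natCast]
    have e3 : (2 : ℝ) ^ j = (2 : ℝ) ^ (j : ℝ) := (Real.rpow_natCast 2 j).symm
    rw [pow_succ, e1, e2, e3, mul_comm ((2 : ℝ) ^ (j : ℝ)) 2, mul_assoc,
      ← Real.rpow_add (by norm_num : (0 : ℝ) < 2)]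
    congr 2
    ring
  let k : α → ℕ := fun p => Nat.log 2 ⌊n p⌋₊
  have hk1 : ∀ p ∈ F, (2 : ℝ) ^ (k p) ≤ n p := by
    intro p hp
    have h1 : 1 ≤ ⌊n p⌋₊ := (Nat.one_le_floor_iff (n p)).mpr (hn p hp)
    have h2 : 2 ^ (k p) ≤ ⌊n p⌋₊ := Nat.pow_log_le_self 2 (by omega)
    have h3 : ((⌊n p⌋₊ : ℕ) : ℝ) ≤ n p := Nat.floor_le (by linarith [hn p hp])
    have h4 : (2 : ℝ) ^ (k p) ≤ ((⌊n p⌋₊ : ℕ) : ℝ) := by exact_mod_cast h2
    exact h4.trans h3
  have hk2 : ∀ p ∈ F, n p ≤ (2 : ℝ) ^ (k p + 1) := by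
    intro p _
    have h2 : ⌊n p⌋₊ + 1 ≤ 2 ^ (k p + 1) := Nat.lt_pow_succ_log_self (by norm_num) _
    have h3 : n p < ⌊n p⌋₊ + 1 := Nat.lt_floor_add_one _
    have h4 : ((⌊n p⌋₊ : ℕ) : ℝ) + 1 ≤ (2 : ℝ) ^ (k p + 1) := by exact_mod_cast h2
    linarith
  have hmaps : ∀ p ∈ F, k p ∈ Finset.range (F.sup k + 1) := by
    intro p hp
    rw [Finset.mem_range]
    exact Nat.lt_succ_of_le (Finset.le_sup hp)
  rw [← Finset.sum_fiberwise_of_maps_to hmaps]
  have hblock : ∀ j ∈ Finset.range (F.sup k + 1),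
      ∑ p ∈ F.filter (fun p => k p = j), a p * n p ^ (-t) ≤ 2 * C * r ^ j := by
    intro j _
    have h2j : (0 : ℝ) < 2 ^ j := by positivity
    calc ∑ p ∈ F.filter (fun p => k p = j), a p * n p ^ (-t)
        ≤ ∑ p ∈ F.filter (fun p => k p = j), a p * ((2 : ℝ) ^ j) ^ (-t) := by
          apply Finset.sum_le_sum
          intro p hp
          rw [Finset.mem_filter] at hp
          apply mul_le_mul_of_nonneg_left _ (ha p hp.1)
          apply Real.rpow_le_rpow_of_nonpos h2j _ (by linarith)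
          rw [← hp.2]; exact hk1 p hp.1
      _ = (∑ p ∈ F.filter (fun p => k p = j), a p) * ((2 : ℝ) ^ j) ^ (-t) := by
          rw [Finset.sum_mul]
      _ ≤ (∑ p ∈ F.filter (fun p => n p ≤ (2 : ℝ) ^ (j + 1)), a p) * ((2 : ℝ) ^ j) ^ (-t) := by
          apply mul_le_mul_of_nonneg_right _ (Real.rpow_nonneg h2j.le _)
          apply Finset.sum_le_sum_of_subset_of_nonneg
          · intro p hp
            rw [Finset.mem_filter] at hp ⊢
            refine ⟨hp.1, ?_⟩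
            rw [← hp.2]; exact hk2 p hp.1
          · intro p hp _
            exact ha p (Finset.mem_of_mem_filter p hp)
      _ ≤ (C * (2 : ℝ) ^ (j + 1)) * ((2 : ℝ) ^ j) ^ (-t) := by
          apply mul_le_mul_of_nonneg_right _ (Real.rpow_nonneg h2j.le _)
          apply hC
          exact one_le_pow₀ (by norm_num)
      _ = 2 * C * r ^ j := by
          rw [mul_assoc, hid j]; ring
  calc ∑ j ∈ Finset.range (F.sup k + 1), ∑ p ∈ F.filter (fun p => k p = j), a p * n p ^ (-t)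
      ≤ ∑ j ∈ Finset.range (F.sup k + 1), 2 * C * r ^ j := Finset.sum_le_sum hblock
    _ = 2 * C * ∑ j ∈ Finset.range (F.sup k + 1), r ^ j := by rw [Finset.mul_sum]
    _ ≤ 2 * C * (1 / (1 - r)) :=
        mul_le_mul_of_nonneg_left (geom_sum_le_980 r hr0.le hr1 _) (by positivity)
    _ = 2 * C / (1 - r) := by ring

theorem log_one_add_ge_980 (y : ℝ) (hy : 0 ≤ y) : y - y ^ 2 ≤ Real.log (1 + y) := by
  have h1y : 0 < 1 + y := by linarith
  have h := Real.one_sub_inv_le_log_of_pos h1y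
  have h2 : (1 + y)⁻¹ ≤ 1 - y + y ^ 2 := by
    rw [inv_eq_one_div, div_le_iff₀ h1y]
    nlinarith [pow_nonneg hy 3]
  linarith

theorem one_sub_two_rpow_ge_980 (s : ℝ) (hs1 : 1 < s) (hs2 : s ≤ 2) :
    (s - 1) * Real.log 2 / 2 ≤ 1 - (2 : ℝ) ^ (-(s - 1)) := by
  have hlog2 : 0 < Real.log 2 := Real.log_pos (by norm_num)
  have hlog2' : Real.log 2 < 1 := by
    have := Real.log_two_lt_d9
    linarith
  have hs0 : 0 < s - 1 := by linarith
  obtain ⟨u, hu⟩ : ∃ u : ℝ, u = (s - 1) * Real.log 2 := ⟨_, rfl⟩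
  have hu0 : 0 < u := by rw [hu]; positivity
  have hu1 : u ≤ 1 := by rw [hu]; nlinarith
  have e : (2 : ℝ) ^ (-(s - 1)) = Real.exp (-u) := by
    rw [Real.rpow_def_of_pos (by norm_num), hu]
    congr 1
    ring
  rw [e, ← hu]
  have h1 : 1 + u ≤ Real.exp u := by linarith [Real.add_one_le_exp u]
  have h2 : Real.exp (-u) ≤ 1 / (1 + u) := by
    rw [Real.exp_neg, ← one_div]
    exact one_div_le_one_div_of_le (by linarith) h1
  have h3 : 1 / (1 + u) ≤ 1 - u / 2 := by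
    rw [div_le_iff₀ (by linarith)]
    nlinarith
  linarith

theorem dirichlet_core_980 {ι : Type*} (N w : ι → ℝ) (C : ℝ) (T : Finset ι)
    (hN : ∀ i ∈ T, 2 ≤ N i) (hw : ∀ i ∈ T, 0 ≤ w i ∧ w i ≤ 4)
    (hC : ∀ X : ℝ, 1 ≤ X →
      ∑ T' ∈ T.powerset.filter (fun T' => ∏ i ∈ T', N i ≤ X), ∏ i ∈ T', w i ≤ C * X)
    (s : ℝ) (hs1 : 1 < s) (hs2 : s ≤ 2) :
    ∑ i ∈ T, w i * N i ^ (-s) ≤
      Real.log (1 / (s - 1)) + (Real.log (4 * C / Real.log 2) + 16 * C) := by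
  have hwT : ∀ T' ∈ T.powerset, 0 ≤ ∏ i ∈ T', w i := by
    intro T' hT'
    rw [Finset.mem_powerset] at hT'
    exact Finset.prod_nonneg (fun i hi => (hw i (hT' hi)).1)
  have hNT : ∀ T' ∈ T.powerset, 1 ≤ ∏ i ∈ T', N i := by
    intro T' hT'
    rw [Finset.mem_powerset] at hT'
    calc (1 : ℝ) = ∏ _i ∈ T', (1 : ℝ) := by simp
      _ ≤ ∏ i ∈ T', N i :=
          Finset.prod_le_prod (fun _ _ => zero_le_one)
            (fun i hi => by linarith [hN i (hT' hi)])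
  have hC1 : 1 ≤ C := by
    have h := hC 1 le_rfl
    have hmem : (∅ : Finset ι) ∈ T.powerset.filter (fun T' => ∏ i ∈ T', N i ≤ 1) := by
      rw [Finset.mem_filter]
      exact ⟨Finset.empty_mem_powerset T, by simp⟩
    have h2 := Finset.single_le_sum (f := fun T' => ∏ i ∈ T', w i)
      (fun T' hT' => hwT T' (Finset.mem_of_mem_filter T' hT')) hmem
    simp only [Finset.prod_empty] at h2
    linarith
  have hlog2 : 0 < Real.log 2 := Real.log_pos (by norm_num)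
  have hs0 : 0 < s - 1 := by linarith
  have hNpos : ∀ i ∈ T, 0 < N i := fun i hi => by linarith [hN i hi]
  have hx0 : ∀ i ∈ T, 0 ≤ w i * N i ^ (-s) :=
    fun i hi => mul_nonneg (hw i hi).1 (Real.rpow_nonneg (hNpos i hi).le _)
  -- the Euler product
  have hprod : ∏ i ∈ T, (1 + w i * N i ^ (-s)) =
      ∑ T' ∈ T.powerset, (∏ i ∈ T', w i) * (∏ i ∈ T', N i) ^ (-s) := by
    rw [Finset.prod_one_add]
    apply Finset.sum_congr rfl
    intro T' hT'
    rw [Finset.mem_powerset] at hT'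
    rw [Finset.prod_mul_distrib,
      Real.finsetProd_rpow _ _ (fun i hi => (hNpos i (hT' hi)).le)]
  have hP1 : ∏ i ∈ T, (1 + w i * N i ^ (-s)) ≤ 2 * C / (1 - (2 : ℝ) ^ (-(s - 1))) := by
    rw [hprod]
    exact dyadic_sum_le_980 T.powerset (fun T' => ∏ i ∈ T', w i) (fun T' => ∏ i ∈ T', N i)
      C s hwT hNT hC hs1
  have hP2 : ∏ i ∈ T, (1 + w i * N i ^ (-s)) ≤ (4 * C / Real.log 2) * (1 / (s - 1)) := by
    refine hP1.trans ?_
    have hpos : 0 < (s - 1) * Real.log 2 / 2 := by positivity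
    calc 2 * C / (1 - (2 : ℝ) ^ (-(s - 1))) ≤ 2 * C / ((s - 1) * Real.log 2 / 2) :=
          div_le_div_of_nonneg_left (by linarith) hpos (one_sub_two_rpow_ge_980 s hs1 hs2)
      _ = (4 * C / Real.log 2) * (1 / (s - 1)) := by
          field_simp
          ring
  have hPpos : 0 < ∏ i ∈ T, (1 + w i * N i ^ (-s)) :=
    Finset.prod_pos (fun i hi => by linarith [hx0 i hi])
  have hlogP : Real.log (∏ i ∈ T, (1 + w i * N i ^ (-s))) ≤
      Real.log (1 / (s - 1)) + Real.log (4 * C / Real.log 2) := by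
    calc Real.log (∏ i ∈ T, (1 + w i * N i ^ (-s)))
        ≤ Real.log ((4 * C / Real.log 2) * (1 / (s - 1))) := Real.log_le_log hPpos hP2
      _ = Real.log (4 * C / Real.log 2) + Real.log (1 / (s - 1)) :=
          Real.log_mul (by positivity) (by positivity)
      _ = _ := add_comm _ _
  have hlogsum : Real.log (∏ i ∈ T, (1 + w i * N i ^ (-s))) =
      ∑ i ∈ T, Real.log (1 + w i * N i ^ (-s)) :=
    Real.log_prod (fun i hi => by linarith [hx0 i hi])
  -- the squares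
  have hsq : ∑ i ∈ T, (w i * N i ^ (-s)) ^ 2 ≤ 16 * C := by
    have hA : ∑ i ∈ T, w i * N i ^ (-(2 : ℝ)) ≤ 2 * C / (1 - (2 : ℝ) ^ (-((2 : ℝ) - 1))) := by
      apply dyadic_sum_le_980 T w N C 2 (fun i hi => (hw i hi).1)
        (fun i hi => by linarith [hN i hi]) _ (by norm_num)
      intro X hX
      refine le_trans ?_ (hC X hX)
      have hmap : ∑ i ∈ T.filter (fun i => N i ≤ X), w i =
          ∑ T' ∈ (T.filter (fun i => N i ≤ X)).map
            ⟨(singleton : ι → Finset ι), Finset.singleton_injective⟩, ∏ i ∈ T', w i := by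
        rw [Finset.sum_map]
        simp
      rw [hmap]
      apply Finset.sum_le_sum_of_subset_of_nonneg
      · intro T' hT'
        rw [Finset.mem_map] at hT'
        obtain ⟨i, hi, rfl⟩ := hT'
        rw [Finset.mem_filter] at hi ⊢
        simp only [Function.Embedding.coeFn_mk, Finset.mem_powerset,
          Finset.singleton_subset_iff, Finset.prod_singleton]
        exact hi
      · intro T' hT' _
        exact hwT T' (Finset.mem_of_mem_filter T' hT')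
    have h4C : 2 * C / (1 - (2 : ℝ) ^ (-((2 : ℝ) - 1))) = 4 * C := by
      have h12 : (2 : ℝ) ^ (-((2 : ℝ) - 1)) = 1 / 2 := by
        rw [show (-((2 : ℝ) - 1)) = -1 by norm_num, Real.rpow_neg_one]
        norm_num
      rw [h12]
      ring
    rw [h4C] at hA
    calc ∑ i ∈ T, (w i * N i ^ (-s)) ^ 2 ≤ ∑ i ∈ T, 4 * (w i * N i ^ (-(2 : ℝ))) := by
          apply Finset.sum_le_sum
          intro i hi
          have hw0 := (hw i hi).1
          have hw4 := (hw i hi).2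
          have hNi := hN i hi
          have hp : 0 ≤ N i ^ (-s) := Real.rpow_nonneg (by linarith) _
          have hp2 : N i ^ (-s) * N i ^ (-s) ≤ N i ^ (-(2 : ℝ)) := by
            rw [← Real.rpow_add (by linarith)]
            exact Real.rpow_le_rpow_of_exponent_le (by linarith) (by linarith)
          calc (w i * N i ^ (-s)) ^ 2 = (w i * w i) * (N i ^ (-s) * N i ^ (-s)) := by ring
            _ ≤ (4 * w i) * N i ^ (-(2 : ℝ)) := by
                apply mul_le_mul _ hp2 (by positivity) (by linarith)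
                nlinarith
            _ = 4 * (w i * N i ^ (-(2 : ℝ))) := by ring
      _ = 4 * ∑ i ∈ T, w i * N i ^ (-(2 : ℝ)) := by rw [Finset.mul_sum]
      _ ≤ 4 * (4 * C) := by linarith
      _ = 16 * C := by ring
  calc ∑ i ∈ T, w i * N i ^ (-s)
      ≤ ∑ i ∈ T, (Real.log (1 + w i * N i ^ (-s)) + (w i * N i ^ (-s)) ^ 2) :=
        Finset.sum_le_sum (fun i hi => by
          linarith [log_one_add_ge_980 (w i * N i ^ (-s)) (hx0 i hi)])
    _ = Real.log (∏ i ∈ T, (1 + w i * N i ^ (-s))) + ∑ i ∈ T, (w i * N i ^ (-s)) ^ 2 := by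
        rw [Finset.sum_add_distrib, hlogsum]
    _ ≤ (Real.log (1 / (s - 1)) + Real.log (4 * C / Real.log 2)) + 16 * C :=
        add_le_add hlogP hsq
    _ = _ := by ring

end Fermat.Agent.LT.T7.H980
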