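import Fermat.Agent.LT.T7.H37.ThinSpec
import Fermat.Agent.LT.T7.H980.DirichletCore

/-!
# Row LT, tower T7, leaf T7.13k `DirichletC` (helper980), OFF-MAIN

`dirichletC980 : Fermat.Agent.LT.T7.H37.DirichletC`, the frozen Prop of
`LT/T7/H37/ThinSpec.lean` (helper37@8584ef06e, sha256 4c697dce), VERBATIM.
Constant: `C' = log (4 C / log 2) + 16 C`.  The proof is `dirichlet_core_980`
(`DirichletCore.lean`, Mathlib only).
-/

set_option autoImplicit false

namespace Fermat.Agent.LT.T7.H980

theorem dirichletC980 : Fermat.Agent.LT.T7.H37.DirichletC := by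
  intro ι N w S C hN hw hC
  refine ⟨Real.log (4 * C / Real.log 2) + 16 * C, ?_⟩
  intro s hs1 hs2 T hT
  have hTS : ∀ i ∈ T, i ∉ S := fun i hi => Finset.disjoint_left.mp hT hi
  exact dirichlet_core_980 N w C T (fun i _ => hN i) (fun i hi => hw i (hTS i hi))
    (hC T hT) s hs1 hs2

end Fermat.Agent.LT.T7.H980
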